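import Mathlib.NumberTheory.NumberField.DedekindZeta
import Mathlib.NumberTheory.SumPrimeReciprocals
import Mathlib.RingTheory.UniqueFactorizationDomain.NormalizedFactors

/-!
# The sum over degree one primes of a number field near `s = 1`

For a number field `K` the sum of `N(P) ^ (-s)` over the primes `P` of prime norm differs from
`-log (s - 1)` by a bounded amount as `s` decreases to `1`.
-/

set_option autoImplicit false

open scoped NumberField Topology
open Filter Finset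

namespace FermatLib.Galois.Density

variable (K : Type*) [Field K] [NumberField K]

/-- Number of ideals of a given norm. -/
noncomputable def idealCount (n : ℕ) : ℕ :=
  Nat.card {I : Ideal (𝓞 K) // Ideal.absNorm I = n}

/-- The real zeta sum of a number field. -/
noncomputable def zetaSum (s : ℝ) : ℝ := ∑' n : ℕ, (idealCount K n : ℝ) * (n : ℝ) ^ (-s)

/-- The sum over primes of prime norm. -/
noncomputable def degOneSum (s : ℝ) : ℝ :=
  ∑' p : Nat.Primes, (idealCount K p : ℝ) * (p : ℝ) ^ (-s)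

/-- The sum of `p ^ (-2)` over primes. -/
noncomputable def invSqSum : ℝ := ∑' p : Nat.Primes, (p : ℝ) ^ (-(2 : ℝ))

lemma invSqSum_summable : Summable fun p : Nat.Primes => (p : ℝ) ^ (-(2 : ℝ)) :=
  Nat.Primes.summable_rpow.mpr (by norm_num)

lemma invSqSum_nonneg : 0 ≤ invSqSum := tsum_nonneg fun _ => by positivity

lemma zetaTerm_eq (s : ℝ) (hs : s ≠ 0) (n : ℕ) :
    LSeries.term (fun k => (idealCount K k : ℂ)) s n =
      (((idealCount K n : ℝ) * (n : ℝ) ^ (-s) : ℝ) : ℂ) := by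
  rcases eq_or_ne n 0 with rfl | hn
  · simp [Real.zero_rpow (neg_ne_zero.mpr hs)]
  · rw [LSeries.term_of_ne_zero hn, Complex.ofReal_mul, Complex.ofReal_cpow n.cast_nonneg,
      Complex.ofReal_neg, Complex.cpow_neg, div_eq_mul_inv]
    simp

lemma zetaSum_summable {s : ℝ} (hs : 1 < s) :
    Summable fun n : ℕ => (idealCount K n : ℝ) * (n : ℝ) ^ (-s) := by
  have hlim : Tendsto (fun n : ℕ => (∑ k ∈ Icc 1 n, (idealCount K k : ℝ)) / ((n : ℝ) ^ (1 : ℝ)))
      atTop (𝓝 (NumberField.dedekindZeta_residue K)) := by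
    refine ((NumberField.Ideal.tendsto_norm_le_div_atTop₀ K).comp
      tendsto_natCast_atTop_atTop).congr fun n ↦ ?_
    simp only [Function.comp_apply, Nat.cast_le, ← Nat.cast_sum, Real.rpow_one]
    congr
    rw [← add_left_inj 1, ← Ideal.card_norm_le_eq_card_norm_le_add_one,
      show Finset.Icc 1 n = Finset.Ioc 0 n from Finset.Icc_succ_left_eq_Ioc _ _,
      show 1 = idealCount K 0 by simp [idealCount, Ideal.absNorm_eq_zero_iff],
      Finset.sum_Ioc_add_eq_sum_Icc (n.zero_le)]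
    simp only [idealCount]
    rw [← Finset.card_preimage_eq_sum_card_image_eq
      (fun k _ ↦ Ideal.finite_setOfPred_absNorm_eq k)]
    simp [Set.coe_eq_subtype]
  have hsum : LSeriesSummable (fun n => (((idealCount K n : ℝ)) : ℂ)) (s : ℂ) :=
    LSeriesSummable_of_sum_norm_bigO_and_nonneg
      (f := fun n => (idealCount K n : ℝ))
      (Asymptotics.isBigO_atTop_natCast_rpow_of_tendsto_div_rpow hlim)
      (fun _ => Nat.cast_nonneg _) zero_le_one (by simpa using hs)
  rw [← Complex.summable_ofReal]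
  refine hsum.congr fun n => ?_
  simpa using zetaTerm_eq K s (by linarith) n

lemma zetaSum_tendsto :
    Tendsto (fun s : ℝ => (s - 1) * zetaSum K s) (𝓝[>] 1)
      (𝓝 (NumberField.dedekindZeta_residue K)) := by
  refine Filter.tendsto_ofReal_iff.mp ?_
  refine (NumberField.tendsto_sub_one_mul_dedekindZeta_nhdsGT K).congr' ?_
  filter_upwards [self_mem_nhdsWithin] with s hs
  rw [Complex.ofReal_mul, zetaSum, Complex.ofReal_tsum]
  simp only [Complex.ofReal_sub, Complex.ofReal_one]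
  congr 1
  exact tsum_congr fun n => zetaTerm_eq K s (zero_lt_one.trans hs).ne' n

lemma idealCount_finite (n : ℕ) : {I : Ideal (𝓞 K) | Ideal.absNorm I = n}.Finite :=
  Ideal.finite_setOfPred_absNorm_eq n

/-- The finite set of ideals of a given norm. -/
noncomputable def normFiber (n : ℕ) : Finset (Ideal (𝓞 K)) := (idealCount_finite K n).toFinset

lemma mem_normFiber {n : ℕ} {I : Ideal (𝓞 K)} : I ∈ normFiber K n ↔ Ideal.absNorm I = n :=
  Set.Finite.mem_toFinset _

lemma card_normFiber (n : ℕ) : (normFiber K n).card = idealCount K n :=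
  (Set.ncard_eq_toFinset_card _ (idealCount_finite K n)).symm

lemma sum_normFiber (n : ℕ) (h : ℕ → ℝ) :
    ∑ I ∈ normFiber K n, h (Ideal.absNorm I) = (idealCount K n : ℝ) * h n := by
  rw [Finset.sum_congr rfl fun I hI => by rw [(mem_normFiber K).mp hI], Finset.sum_const,
    nsmul_eq_mul, card_normFiber]

lemma sum_biUnion_normFiber {ι : Type*} (U : Finset ι) (ν : ι → ℕ) (hν : Function.Injective ν)
    (h : ℕ → ℝ) [DecidableEq (Ideal (𝓞 K))] :
    ∑ I ∈ U.biUnion (fun i => normFiber K (ν i)), h (Ideal.absNorm I) =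
      ∑ i ∈ U, (idealCount K (ν i) : ℝ) * h (ν i) := by
  rw [Finset.sum_biUnion]
  · exact Finset.sum_congr rfl fun i _ => sum_normFiber K (ν i) h
  · intro a _ b _ hab
    exact Finset.disjoint_left.mpr fun P hPa hPb =>
      hab (hν (((mem_normFiber K).mp hPa).symm.trans ((mem_normFiber K).mp hPb)))

/-- A finite sum over ideals is at most the sum over norms. -/
lemma sum_ideals_eq_sum_norms (T : Finset (Ideal (𝓞 K))) (h : ℕ → ℝ) (hh : ∀ n, 0 ≤ h n)
    (U : Finset ℕ) (hU : ∀ I ∈ T, Ideal.absNorm I ∈ U) :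
    ∑ I ∈ T, h (Ideal.absNorm I) ≤ ∑ n ∈ U, (idealCount K n : ℝ) * h n := by
  classical
  rw [← Finset.sum_fiberwise_of_maps_to hU]
  refine Finset.sum_le_sum fun n _ => ?_
  rw [Finset.sum_congr rfl fun I hI => by rw [(Finset.mem_filter.mp hI).2], Finset.sum_const,
    nsmul_eq_mul]
  refine mul_le_mul_of_nonneg_right (Nat.cast_le.mpr ?_) (hh n)
  rw [← card_normFiber]
  exact Finset.card_le_card fun I hI => (mem_normFiber K).mpr (Finset.mem_filter.mp hI).2

lemma sum_ideals_le_zetaSum {s : ℝ} (hs : 1 < s) (T : Finset (Ideal (𝓞 K))) :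
    ∑ I ∈ T, (Ideal.absNorm I : ℝ) ^ (-s) ≤ zetaSum K s :=
  (sum_ideals_eq_sum_norms K T (fun n => (n : ℝ) ^ (-s)) (fun _ => by positivity)
    (T.image fun I => Ideal.absNorm I) fun _ hI => Finset.mem_image_of_mem _ hI).trans
    ((zetaSum_summable K hs).sum_le_tsum _ fun _ _ => by positivity)

lemma one_le_zetaSum {s : ℝ} (hs : 1 < s) : 1 ≤ zetaSum K s := by
  simpa using sum_ideals_le_zetaSum K hs {⊤}

lemma absNorm_span_natCast (p : ℕ) :
    Ideal.absNorm (Ideal.span {(p : 𝓞 K)}) = p ^ Module.finrank ℚ K := by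
  rw [← map_natCast (algebraMap ℤ (𝓞 K)), Ideal.absNorm_span_singleton, Algebra.norm_algebraMap,
    NumberField.RingOfIntegers.rank K, Int.natAbs_pow, Int.natAbs_natCast]

/-- The norm of a prime ideal is a power of a prime it contains. -/
lemma exists_norm_eq_pow {P : Ideal (𝓞 K)} (hP : Prime P) :
    ∃ p f : ℕ, p.Prime ∧ f ≠ 0 ∧ (p : 𝓞 K) ∈ P ∧ Ideal.absNorm P = p ^ f := by
  have hprime : P.IsPrime := Ideal.isPrime_of_prime hP
  have hn1 : Ideal.absNorm P ≠ 1 := fun h => hprime.ne_top (Ideal.absNorm_eq_one_iff.mp h)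
  have hn0 : Ideal.absNorm P ≠ 0 := fun h => hP.ne_zero (Ideal.absNorm_eq_zero_iff.mp h)
  have hmem := Ideal.absNorm_mem P
  rw [← Nat.prod_primeFactorsList hn0, Nat.cast_list_prod, ← Multiset.prod_coe,
    hprime.multiset_prod_mem_iff_exists_mem] at hmem
  obtain ⟨_, hx, hxP⟩ := hmem
  obtain ⟨p, hp, rfl⟩ := List.mem_map.mp (Multiset.mem_coe.mp hx)
  have hp' := Nat.prime_of_mem_primeFactorsList hp
  have hdvd := map_dvd Ideal.absNorm (Ideal.dvd_span_singleton.mpr hxP)
  rw [absNorm_span_natCast] at hdvd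
  obtain ⟨f, -, hf⟩ := (Nat.dvd_prime_pow hp').mp hdvd
  exact ⟨p, f, hp', fun h0 => hn1 (by rw [hf, h0, pow_zero]), hxP, hf⟩

lemma card_le_finrank_of_mem {p : ℕ} (hp : p.Prime) (T : Finset (Ideal (𝓞 K)))
    (hT : ∀ P ∈ T, Prime P ∧ (p : 𝓞 K) ∈ P) : T.card ≤ Module.finrank ℚ K := by
  have hdvd : ∏ P ∈ T, P ∣ Ideal.span {(p : 𝓞 K)} :=
    Finset.prod_primes_dvd _ (fun P hP => (hT P hP).1)
      fun P hP => Ideal.dvd_span_singleton.mpr (hT P hP).2
  have h := map_dvd Ideal.absNorm hdvd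
  rw [map_prod, absNorm_span_natCast] at h
  refine (Nat.pow_dvd_pow_iff_le_right hp.one_lt).mp ((dvd_trans ?_ h))
  rw [← Finset.prod_const]
  refine Finset.prod_dvd_prod_of_dvd _ _ fun P hP => ?_
  obtain ⟨q, f, hq, hf0, hqP, hf⟩ := exists_norm_eq_pow K (hT P hP).1
  have hdv := map_dvd Ideal.absNorm (Ideal.dvd_span_singleton.mpr (hT P hP).2)
  rw [absNorm_span_natCast, hf] at hdv
  have hqp : q = p := (Nat.prime_dvd_prime_iff_eq hq hp).mp
    (hq.dvd_of_dvd_pow ((dvd_pow_self q hf0).trans hdv))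
  rw [hf, hqp]
  exact dvd_pow_self p hf0

lemma prime_of_absNorm_prime {P : Ideal (𝓞 K)} (h : (Ideal.absNorm P).Prime) : Prime P :=
  Ideal.prime_of_isPrime (fun h0 => h.ne_zero (by simp [h0]))
    (Ideal.isPrime_of_irreducible_absNorm h)

lemma idealCount_prime_le {p : ℕ} (hp : p.Prime) : idealCount K p ≤ Module.finrank ℚ K := by
  rw [← card_normFiber]
  refine card_le_finrank_of_mem K hp _ fun P hP => ?_
  have hP' : Ideal.absNorm P = p := (mem_normFiber K).mp hP
  exact ⟨prime_of_absNorm_prime K (hP' ▸ hp), hP' ▸ Ideal.absNorm_mem P⟩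

lemma degOneSum_summable {s : ℝ} (hs : 1 < s) :
    Summable fun p : Nat.Primes => (idealCount K p : ℝ) * (p : ℝ) ^ (-s) :=
  Summable.of_nonneg_of_le (fun p => by positivity)
    (fun p => mul_le_mul_of_nonneg_right (Nat.cast_le.mpr (idealCount_prime_le K p.2))
      (by positivity))
    ((Nat.Primes.summable_rpow.mpr (by linarith)).mul_left _)

/-- The squarefree half of the Euler product. -/
lemma prod_one_add_le {s : ℝ} (hs : 1 < s) (T : Finset (Ideal (𝓞 K))) (hT : ∀ P ∈ T, Prime P) :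
    ∏ P ∈ T, (1 + (Ideal.absNorm P : ℝ) ^ (-s)) ≤ zetaSum K s := by
  classical
  rw [Finset.prod_one_add]
  have h : ∀ t ∈ T.powerset, ∏ P ∈ t, (Ideal.absNorm P : ℝ) ^ (-s) =
      (Ideal.absNorm (∏ P ∈ t, P) : ℝ) ^ (-s) := fun t _ => by
    rw [map_prod, Nat.cast_prod, Real.finsetProd_rpow _ _ fun P _ => Nat.cast_nonneg _]
  have hf : ∀ t ∈ T.powerset, UniqueFactorizationMonoid.normalizedFactors (∏ P ∈ t, P) = t.val := by
    intro t ht
    rw [Finset.prod_eq_multiset_prod, Multiset.map_id']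
    exact UniqueFactorizationMonoid.normalizedFactors_prod_of_prime
      fun P hP => hT P (Finset.mem_powerset.mp ht (Finset.mem_val.mp hP))
  rw [Finset.sum_congr rfl h, ← Finset.sum_image (g := fun t => ∏ P ∈ t, P)
    (f := fun I : Ideal (𝓞 K) => (Ideal.absNorm I : ℝ) ^ (-s))]
  · exact sum_ideals_le_zetaSum K hs _
  · intro a ha b hb hab
    exact Finset.val_injective (by rw [← hf a ha, ← hf b hb, show ∏ P ∈ a, P = ∏ P ∈ b, P from hab])

lemma rpow_le_half {s : ℝ} (hs : 1 < s) {n : ℕ} (hn : 2 ≤ n) : (n : ℝ) ^ (-s) ≤ 1 / 2 := by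
  have h2 : (2 : ℝ) ≤ n := by exact_mod_cast hn
  calc (n : ℝ) ^ (-s) ≤ (n : ℝ) ^ (-(1 : ℝ)) :=
        Real.rpow_le_rpow_of_exponent_le (by linarith) (by linarith)
    _ ≤ 1 / 2 := by rw [Real.rpow_neg_one, one_div]; exact inv_anti₀ (by norm_num) h2

lemma sub_sq_le_log_one_add {x : ℝ} (hx : 0 ≤ x) : x - x ^ 2 ≤ Real.log (1 + x) := by
  refine le_trans ?_ (Real.one_sub_inv_le_log_of_pos (by linarith))
  rw [show 1 - (1 + x)⁻¹ = x / (1 + x) by field_simp; ring, le_div_iff₀ (by linarith)]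
  nlinarith [pow_nonneg hx 3]

lemma degOneSum_le {s : ℝ} (hs : 1 < s) :
    degOneSum K s ≤ Real.log (zetaSum K s) + Module.finrank ℚ K * invSqSum := by
  classical
  refine Real.tsum_le_of_sum_le (fun p => by positivity) fun U => ?_
  let T : Finset (Ideal (𝓞 K)) := U.biUnion fun p => normFiber K p
  have hTsum : ∑ P ∈ T, (Ideal.absNorm P : ℝ) ^ (-s) =
      ∑ p ∈ U, (idealCount K p : ℝ) * (p : ℝ) ^ (-s) :=
    sum_biUnion_normFiber K U (fun p => (p : ℕ)) Subtype.val_injective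
      (fun n => (n : ℝ) ^ (-s))
  have hTprime : ∀ P ∈ T, Prime P := by
    intro P hP
    obtain ⟨p, -, hPp⟩ := Finset.mem_biUnion.mp hP
    exact prime_of_absNorm_prime K (((mem_normFiber K).mp hPp).symm ▸ p.2)
  have hlog : ∑ P ∈ T, ((Ideal.absNorm P : ℝ) ^ (-s) - ((Ideal.absNorm P : ℝ) ^ (-s)) ^ 2) ≤
      Real.log (zetaSum K s) := by
    refine (Finset.sum_le_sum fun P _ => sub_sq_le_log_one_add (by positivity)).trans ?_
    rw [← Real.log_prod (fun P _ => by positivity)]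
    exact Real.log_le_log (Finset.prod_pos fun P _ => by positivity)
      (prod_one_add_le K hs T hTprime)
  have hsq : ∑ P ∈ T, ((Ideal.absNorm P : ℝ) ^ (-s)) ^ 2 ≤ Module.finrank ℚ K * invSqSum := by
    calc ∑ P ∈ T, ((Ideal.absNorm P : ℝ) ^ (-s)) ^ 2
        = ∑ p ∈ U, (idealCount K p : ℝ) * ((p : ℝ) ^ (-s)) ^ 2 :=
          sum_biUnion_normFiber K U (fun p => (p : ℕ)) Subtype.val_injective
            (fun n => ((n : ℝ) ^ (-s)) ^ 2)
      _ ≤ ∑ p ∈ U, (Module.finrank ℚ K : ℝ) * (p : ℝ) ^ (-(2 : ℝ)) := by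
          refine Finset.sum_le_sum fun p _ => ?_
          gcongr
          · exact idealCount_prime_le K p.2
          · rw [← Real.rpow_natCast, ← Real.rpow_mul (Nat.cast_nonneg _)]
            exact Real.rpow_le_rpow_of_exponent_le (by exact_mod_cast p.2.one_le) (by
              push_cast; linarith)
      _ ≤ _ := by
          rw [← Finset.mul_sum]
          exact mul_le_mul_of_nonneg_left (invSqSum_summable.sum_le_tsum _ fun _ _ => by positivity)
            (Nat.cast_nonneg _)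
  rw [Finset.sum_sub_distrib, hTsum] at hlog
  linarith

/-- Finitely many ideals are bounded by a finite Euler product. -/
lemma sum_le_prod_inv {s : ℝ} (hs : 1 < s) (I₀ : Finset (Ideal (𝓞 K))) (hI₀ : (⊥ : Ideal (𝓞 K)) ∉ I₀) :
    ∃ T : Finset (Ideal (𝓞 K)), (∀ P ∈ T, Prime P) ∧
      ∑ I ∈ I₀, (Ideal.absNorm I : ℝ) ^ (-s) ≤
        ∏ P ∈ T, (1 - (Ideal.absNorm P : ℝ) ^ (-s))⁻¹ := by
  classical
  let T : Finset (Ideal (𝓞 K)) :=
    I₀.biUnion fun I => (UniqueFactorizationMonoid.normalizedFactors I).toFinset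
  let E : ℕ := I₀.sup fun I => Multiset.card (UniqueFactorizationMonoid.normalizedFactors I)
  have hT : ∀ P ∈ T, Prime P := fun P hP => by
    obtain ⟨I, -, hPI⟩ := Finset.mem_biUnion.mp hP
    exact UniqueFactorizationMonoid.prime_of_normalized_factor P (Multiset.mem_toFinset.mp hPI)
  refine ⟨T, hT, ?_⟩
  let x : Ideal (𝓞 K) → ℝ := fun P => (Ideal.absNorm P : ℝ) ^ (-s)
  let F : (T → ℕ) → Ideal (𝓞 K) := fun e => ∏ P : T, (P : Ideal (𝓞 K)) ^ e P
  let J : Finset (T → ℕ) := Fintype.piFinset fun _ => Finset.range (E + 1)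
  have hsub : I₀ ⊆ J.image F := by
    intro I hI
    refine Finset.mem_image.mpr ⟨fun P => (UniqueFactorizationMonoid.normalizedFactors I).count P.1,
      Fintype.mem_piFinset.mpr fun P => Finset.mem_range.mpr (Nat.lt_succ_of_le ?_), ?_⟩
    · exact (Multiset.count_le_card _ _).trans
        (Finset.le_sup (f := fun I => Multiset.card (UniqueFactorizationMonoid.normalizedFactors I))
          hI)
    · change ∏ P : T, (P : Ideal (𝓞 K)) ^
          (UniqueFactorizationMonoid.normalizedFactors I).count P.1 = I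
      rw [Finset.prod_coe_sort T fun P =>
          P ^ (UniqueFactorizationMonoid.normalizedFactors I).count P,
        ← Finset.prod_subset
          (s₁ := (UniqueFactorizationMonoid.normalizedFactors I).toFinset),
        ← Finset.prod_multiset_count]
      · exact associated_iff_eq.mp
          (UniqueFactorizationMonoid.prod_normalizedFactors
            fun h => hI₀ (by rw [← Ideal.zero_eq_bot, ← h]; exact hI))
      · exact fun P hP => Finset.mem_biUnion.mpr ⟨I, hI, hP⟩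
      · intro P _ hP
        rw [Multiset.count_eq_zero.mpr (fun h => hP (Multiset.mem_toFinset.mpr h)), pow_zero]
  have hx : ∀ P ∈ T, 0 ≤ x P ∧ x P < 1 := by
    intro P hP
    obtain ⟨p, f, hp, hf, -, hn⟩ := exists_norm_eq_pow K (hT P hP)
    refine ⟨by positivity, lt_of_le_of_lt (rpow_le_half hs ?_) (by norm_num)⟩
    rw [hn]
    exact hp.two_le.trans (Nat.le_self_pow hf p)
  calc ∑ I ∈ I₀, (Ideal.absNorm I : ℝ) ^ (-s)
      ≤ ∑ I ∈ J.image F, (Ideal.absNorm I : ℝ) ^ (-s) :=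
        Finset.sum_le_sum_of_subset_of_nonneg hsub fun _ _ _ => by positivity
    _ ≤ ∑ e ∈ J, (Ideal.absNorm (F e) : ℝ) ^ (-s) :=
        Finset.sum_image_le_of_nonneg fun _ _ => by positivity
    _ = ∑ e ∈ J, ∏ P : T, x P ^ e P := by
        refine Finset.sum_congr rfl fun e _ => ?_
        simp only [F, map_prod, map_pow, Nat.cast_prod, Nat.cast_pow]
        rw [← Real.finsetProd_rpow _ _ fun P _ => by positivity]
        exact Finset.prod_congr rfl fun P _ =>
          (Real.rpow_pow_comm (Nat.cast_nonneg _) _ _).symm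
    _ = ∏ P : T, ∑ n ∈ Finset.range (E + 1), x P ^ n := by rw [Finset.prod_univ_sum]
    _ ≤ ∏ P : T, (1 - x P)⁻¹ := by
        refine Finset.prod_le_prod (fun P _ => ?_) fun P _ => ?_
        · exact Finset.sum_nonneg fun _ _ => pow_nonneg (hx _ P.2).1 _
        · rw [← tsum_geometric_of_lt_one (hx _ P.2).1 (hx _ P.2).2]
          exact (summable_geometric_of_lt_one (hx _ P.2).1 (hx _ P.2).2).sum_le_tsum _
            fun _ _ => pow_nonneg (hx _ P.2).1 _
    _ = _ := Finset.prod_coe_sort T fun P => (1 - x P)⁻¹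

lemma inv_one_sub_le_exp {x : ℝ} (h0 : 0 ≤ x) (h1 : x ≤ 1 / 2) :
    (1 - x)⁻¹ ≤ Real.exp (x + 2 * x ^ 2) := by
  refine le_trans ?_ (Real.add_one_le_exp _)
  rw [inv_le_iff_one_le_mul₀ (by linarith)]
  nlinarith

lemma sum_primes_le {s : ℝ} (hs : 1 < s) (T : Finset (Ideal (𝓞 K))) (hT : ∀ P ∈ T, Prime P) :
    ∑ P ∈ T, ((Ideal.absNorm P : ℝ) ^ (-s) + 2 * ((Ideal.absNorm P : ℝ) ^ (-s)) ^ 2) ≤
      degOneSum K s + 3 * Module.finrank ℚ K * invSqSum := by
  classical
  have hex : ∀ P : T, ∃ p : Nat.Primes, ∃ f : ℕ, f ≠ 0 ∧ ((p : ℕ) : 𝓞 K) ∈ (P : Ideal (𝓞 K)) ∧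
      Ideal.absNorm (P : Ideal (𝓞 K)) = (p : ℕ) ^ f := fun P => by
    obtain ⟨p, f, hp, h⟩ := exists_norm_eq_pow K (hT P P.2)
    exact ⟨⟨p, hp⟩, f, h⟩
  choose p f hf hmem hnorm using hex
  let D : Finset (Ideal (𝓞 K)) := T.filter fun P => (Ideal.absNorm P).Prime
  have hmain : ∀ P : T, (Ideal.absNorm (P : Ideal (𝓞 K)) : ℝ) ^ (-s) +
      2 * ((Ideal.absNorm (P : Ideal (𝓞 K)) : ℝ) ^ (-s)) ^ 2 ≤
      (if (P : Ideal (𝓞 K)) ∈ D then (Ideal.absNorm (P : Ideal (𝓞 K)) : ℝ) ^ (-s) else 0) +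
        3 * ((p P : ℕ) : ℝ) ^ (-(2 : ℝ)) := by
    intro P
    have hp1 : (1 : ℝ) ≤ ((p P : ℕ) : ℝ) := by exact_mod_cast (p P).2.one_le
    have hx := rpow_le_half hs (n := Ideal.absNorm (P : Ideal (𝓞 K)))
      (hnorm P ▸ (p P).2.two_le.trans (Nat.le_self_pow (hf P) _))
    have hx0 : (0 : ℝ) ≤ (Ideal.absNorm (P : Ideal (𝓞 K)) : ℝ) ^ (-s) := by positivity
    rw [hnorm P, Nat.cast_pow, ← Real.rpow_natCast, ← Real.rpow_mul (by linarith)] at hx hx0 ⊢
    rcases eq_or_ne (f P) 1 with h1 | h1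
    · rw [if_pos (Finset.mem_filter.mpr ⟨P.2, by rw [hnorm P, h1, pow_one]; exact (p P).2⟩)]
      have : (((p P : ℕ) : ℝ) ^ ((f P : ℝ) * -s)) ^ 2 ≤ ((p P : ℕ) : ℝ) ^ (-(2 : ℝ)) := by
        rw [← Real.rpow_natCast, ← Real.rpow_mul (by linarith)]
        exact Real.rpow_le_rpow_of_exponent_le hp1 (by rw [h1]; push_cast; linarith)
      have : (0 : ℝ) ≤ ((p P : ℕ) : ℝ) ^ (-(2 : ℝ)) := by positivity
      linarith
    · have h2 : (2 : ℝ) ≤ f P := by
        have := hf P
        exact_mod_cast (show 2 ≤ f P by omega)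
      have h3 : ((p P : ℕ) : ℝ) ^ ((f P : ℝ) * -s) ≤ ((p P : ℕ) : ℝ) ^ (-(2 : ℝ)) :=
        Real.rpow_le_rpow_of_exponent_le hp1 (by nlinarith)
      split_ifs
      · nlinarith
      · nlinarith
  rw [← Finset.sum_coe_sort T]
  refine (Finset.sum_le_sum fun P _ => hmain P).trans ?_
  rw [Finset.sum_add_distrib, ← Finset.mul_sum, mul_assoc (3 : ℝ)]
  refine add_le_add ?_ (mul_le_mul_of_nonneg_left ?_ (by norm_num))
  · rw [Finset.sum_coe_sort T fun P =>
        if P ∈ D then (Ideal.absNorm P : ℝ) ^ (-s) else 0, ← Finset.sum_filter]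
    let U : Finset Nat.Primes := Finset.univ.image p
    have hU : ∀ P ∈ T.filter (· ∈ D), Ideal.absNorm P ∈ U.image (fun q : Nat.Primes => (q : ℕ)) := by
      intro P hP
      obtain ⟨hPT, hPD⟩ := Finset.mem_filter.mp hP
      refine Finset.mem_image.mpr ⟨p ⟨P, hPT⟩, Finset.mem_image_of_mem _ (Finset.mem_univ _), ?_⟩
      have h := (Finset.mem_filter.mp hPD).2
      rw [hnorm ⟨P, hPT⟩] at h
      show (p ⟨P, hPT⟩ : ℕ) = Ideal.absNorm P
      rw [hnorm ⟨P, hPT⟩, (Nat.Prime.eq_one_of_pow h), pow_one]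
    refine (sum_ideals_eq_sum_norms K _ (fun n => (n : ℝ) ^ (-s)) (fun _ => by positivity) _
      hU).trans ?_
    rw [Finset.sum_image fun (a : Nat.Primes) _ (b : Nat.Primes) _ (h : (a : ℕ) = b) =>
      Subtype.ext h]
    exact (degOneSum_summable K hs).sum_le_tsum _ fun _ _ => by positivity
  · rw [← Finset.sum_fiberwise_of_maps_to
      (fun P _ => Finset.mem_image_of_mem p (Finset.mem_univ P))]
    calc ∑ q ∈ (Finset.univ : Finset T).image p,
          ∑ P ∈ Finset.univ with p P = q, ((p P : ℕ) : ℝ) ^ (-(2 : ℝ))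
        ≤ ∑ q ∈ (Finset.univ : Finset T).image p,
          (Module.finrank ℚ K : ℝ) * ((q : ℕ) : ℝ) ^ (-(2 : ℝ)) := by
          refine Finset.sum_le_sum fun q _ => ?_
          rw [Finset.sum_congr rfl fun P hP => by rw [(Finset.mem_filter.mp hP).2],
            Finset.sum_const, nsmul_eq_mul]
          refine mul_le_mul_of_nonneg_right (Nat.cast_le.mpr ?_) (by positivity)
          rw [← Finset.card_map (Function.Embedding.subtype _)]
          refine card_le_finrank_of_mem K q.2 _ fun P hP => ?_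
          obtain ⟨⟨P', hP'⟩, h, rfl⟩ := Finset.mem_map.mp hP
          exact ⟨hT _ hP', (Finset.mem_filter.mp h).2 ▸ hmem ⟨P', hP'⟩⟩
      _ ≤ _ := by
          rw [← Finset.mul_sum]
          exact mul_le_mul_of_nonneg_left
            (invSqSum_summable.sum_le_tsum _ fun _ _ => by positivity) (Nat.cast_nonneg _)

lemma log_zetaSum_le {s : ℝ} (hs : 1 < s) :
    Real.log (zetaSum K s) ≤ degOneSum K s + 3 * Module.finrank ℚ K * invSqSum := by
  classical
  rw [Real.log_le_iff_le_exp (zero_lt_one.trans_le (one_le_zetaSum K hs))]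
  refine Real.tsum_le_of_sum_le (fun _ => by positivity) fun U => ?_
  let I₀ : Finset (Ideal (𝓞 K)) := (U.filter (· ≠ 0)).biUnion fun n => normFiber K n
  have hI₀ : (⊥ : Ideal (𝓞 K)) ∉ I₀ := by
    simp only [I₀, Finset.mem_biUnion, mem_normFiber, Finset.mem_filter]
    rintro ⟨n, ⟨-, hn⟩, h⟩
    exact hn (h.symm.trans (by simp))
  obtain ⟨T, hT, hle⟩ := sum_le_prod_inv K hs I₀ hI₀
  calc ∑ n ∈ U, (idealCount K n : ℝ) * (n : ℝ) ^ (-s)
      = ∑ n ∈ U.filter (· ≠ 0), (idealCount K n : ℝ) * (n : ℝ) ^ (-s) := by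
        refine (Finset.sum_filter_of_ne (p := fun n : ℕ => n ≠ 0) fun n _ hn h0 => hn ?_).symm
        rw [h0, Nat.cast_zero, Real.zero_rpow (by linarith), mul_zero]
    _ = ∑ I ∈ I₀, (Ideal.absNorm I : ℝ) ^ (-s) :=
        (sum_biUnion_normFiber K _ id Function.injective_id (fun n => (n : ℝ) ^ (-s))).symm
    _ ≤ _ := hle
    _ ≤ ∏ P ∈ T, Real.exp ((Ideal.absNorm P : ℝ) ^ (-s) +
          2 * ((Ideal.absNorm P : ℝ) ^ (-s)) ^ 2) := by
        have hb : ∀ P ∈ T, (Ideal.absNorm P : ℝ) ^ (-s) ≤ 1 / 2 := fun P hP => by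
          obtain ⟨p, f, hp, hf, -, hn⟩ := exists_norm_eq_pow K (hT P hP)
          exact rpow_le_half hs (hn ▸ hp.two_le.trans (Nat.le_self_pow hf p))
        exact Finset.prod_le_prod (fun P hP => inv_nonneg.mpr (by linarith [hb P hP]))
          fun P hP => inv_one_sub_le_exp (by positivity) (hb P hP)
    _ ≤ _ := by
        rw [← Real.exp_sum]
        exact Real.exp_le_exp.mpr (sum_primes_le K hs T hT)

/-- The sum over primes of prime norm is `-log (s - 1) + O(1)` as `s → 1⁺`. -/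
theorem degOneSum_add_log_bounded :
    ∃ C : ℝ, ∀ᶠ s : ℝ in 𝓝[>] 1, |degOneSum K s + Real.log (s - 1)| ≤ C := by
  have hlim := (Real.continuousAt_log (NumberField.dedekindZeta_residue_ne_zero K)).tendsto.comp
    (zetaSum_tendsto K)
  have hb := hlim.abs.eventually_le_const (lt_add_one |Real.log (NumberField.dedekindZeta_residue K)|)
  refine ⟨|Real.log (NumberField.dedekindZeta_residue K)| + 1 +
    3 * Module.finrank ℚ K * invSqSum, ?_⟩
  filter_upwards [hb, self_mem_nhdsWithin] with s h hs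
  simp only [Function.comp_apply] at h
  rw [Real.log_mul (sub_ne_zero.mpr (ne_of_gt hs))
    (zero_lt_one.trans_le (one_le_zetaSum K hs)).ne'] at h
  have h₁ := degOneSum_le K hs
  have h₂ := log_zetaSum_le K hs
  have h₃ := invSqSum_nonneg
  have h₄ : (0 : ℝ) ≤ Module.finrank ℚ K * invSqSum := by positivity
  rw [abs_le] at h ⊢
  constructor <;> nlinarith

end FermatLib.Galois.Density
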