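import Mathlib.Algebra.Algebra.ZMod
import Mathlib.FieldTheory.Galois.IsGaloisGroup
import Mathlib.FieldTheory.Finite.Basic
import Mathlib.LinearAlgebra.FreeModule.IdealQuotient
import Mathlib.NumberTheory.ArithmeticFunction.Moebius
import Mathlib.RingTheory.Frobenius
import Fermat.Agent.Galois.Density.Zeta

/-!
# Counting degree one primes of fixed fields through Frobenius elements
-/

set_option autoImplicit false

open scoped NumberField Pointwise Topology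
open Filter Finset ArithmeticFunction

namespace FermatLib.Galois.Density

variable (L : Type*) [Field L] [NumberField L] [IsGalois ℚ L]

/-- Outside the divisors of a fixed nonzero number, inertia is trivial. -/
lemma exists_ne_zero_inertia_eq_bot :
    ∃ N : ℕ, N ≠ 0 ∧ ∀ p : ℕ, p.Prime → ¬ p ∣ N → ∀ Q : Ideal (𝓞 L), Q.IsPrime →
      (p : 𝓞 L) ∈ Q → Q.inertia (L ≃ₐ[ℚ] L) = ⊥ := by
  classical
  have : FaithfulSMul (L ≃ₐ[ℚ] L) (𝓞 L) :=
    (inferInstance : IsGaloisGroup (L ≃ₐ[ℚ] L) ℤ (𝓞 L)).faithful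
  have hmove : ∀ σ : L ≃ₐ[ℚ] L, ∃ x : 𝓞 L, σ ≠ 1 → σ • x - x ≠ 0 := by
    intro σ
    by_contra! h
    obtain ⟨hσ, h0⟩ := h 0
    refine hσ (eq_of_smul_eq_smul (α := 𝓞 L) fun x => ?_)
    rw [one_smul, ← sub_eq_zero]
    exact (h x).2
  choose x hx using hmove
  let Δ : 𝓞 L := ∏ σ ∈ (Finset.univ : Finset (L ≃ₐ[ℚ] L)).erase 1, (σ • x σ - x σ)
  have hΔ : Δ ≠ 0 := Finset.prod_ne_zero_iff.mpr fun σ hσ => hx σ (Finset.ne_of_mem_erase hσ)
  refine ⟨Ideal.absNorm (Ideal.span {Δ}), ?_, fun p hp hpN Q hQ hpQ => ?_⟩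
  · simpa [Ideal.absNorm_eq_zero_iff] using hΔ
  · refine (Subgroup.eq_bot_iff_forall _).mpr fun σ hσ => by_contra fun hne => hpN ?_
    have hΔQ : Δ ∈ Q :=
      Ideal.IsPrime.prod_mem_iff.mpr ⟨σ, Finset.mem_erase.mpr ⟨hne, Finset.mem_univ _⟩, hσ (x σ)⟩
    have hQ0 : Q ≠ ⊥ := fun h => by
      rw [h, Ideal.mem_bot] at hpQ
      exact hp.ne_zero (by exact_mod_cast hpQ)
    obtain ⟨q, f, hq, hf, hqQ, hnorm⟩ := exists_norm_eq_pow L (Ideal.prime_of_isPrime hQ0 hQ)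
    have h1 := map_dvd Ideal.absNorm (Ideal.dvd_span_singleton.mpr hpQ)
    rw [absNorm_span_natCast, hnorm] at h1
    have hqp : q = p := (Nat.prime_dvd_prime_iff_eq hq hp).mp
      (hq.dvd_of_dvd_pow ((dvd_pow_self q hf).trans h1))
    refine (dvd_pow_self p hf).trans ?_
    rw [← hqp, ← hnorm]
    exact map_dvd Ideal.absNorm (Ideal.dvd_span_singleton.mpr hΔQ)

section Local

variable {p : ℕ} (hp : p.Prime) {Q : Ideal (𝓞 L)} [Q.IsPrime] (hpQ : (p : 𝓞 L) ∈ Q)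

include hp hpQ

omit [IsGalois ℚ L] in
lemma ne_bot_of_natCast_mem : Q ≠ ⊥ := fun h => by
  rw [h, Ideal.mem_bot] at hpQ
  exact hp.ne_zero (by exact_mod_cast hpQ)

omit [IsGalois ℚ L] in
lemma finite_quotient_of_natCast_mem : Finite (𝓞 L ⧸ Q) :=
  Ideal.finiteQuotientOfFreeOfNeBot Q (ne_bot_of_natCast_mem L hp hpQ)

omit [IsGalois ℚ L] in
lemma natCard_quotient_under_int : Nat.card (ℤ ⧸ Q.under ℤ) = p := by
  have hmax : (Ideal.span {(p : ℤ)}).IsMaximal :=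
    PrincipalIdealRing.isMaximal_of_irreducible (Nat.prime_iff_prime_int.mp hp).irreducible
  have : Q.under ℤ = Ideal.span {(p : ℤ)} := by
    refine (hmax.eq_of_le (Ideal.comap_ne_top _ Ideal.IsPrime.ne_top') ?_).symm
    rw [Ideal.span_singleton_le_iff_mem, Ideal.mem_comap]
    simpa using hpQ
  rw [this, Nat.card_congr (Int.quotientSpanNatEquivZMod p).toEquiv, Nat.card_zmod]

omit [IsGalois ℚ L] in
lemma isArithFrobAt_int_iff (σ : L ≃ₐ[ℚ] L) :
    IsArithFrobAt ℤ σ Q ↔ ∀ x : 𝓞 L, σ • x - x ^ p ∈ Q := by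
  unfold IsArithFrobAt AlgHom.IsArithFrobAt
  simp only [natCard_quotient_under_int L hp hpQ, MulSemiringAction.toAlgHom_apply]

lemma exists_isArithFrobAt : ∃ σ : L ≃ₐ[ℚ] L, IsArithFrobAt ℤ σ Q :=
  haveI := finite_quotient_of_natCast_mem L hp hpQ
  IsArithFrobAt.exists_of_isInvariant ℤ (L ≃ₐ[ℚ] L) Q

omit hp hpQ [IsGalois ℚ L] in
lemma isArithFrobAt_unique (hin : Q.inertia (L ≃ₐ[ℚ] L) = ⊥) {σ τ : L ≃ₐ[ℚ] L}
    (hσ : IsArithFrobAt ℤ σ Q) (hτ : IsArithFrobAt ℤ τ Q) : σ = τ := by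
  have h := hσ.mul_inv_mem_inertia hτ
  rw [hin, Subgroup.mem_bot] at h
  exact mul_inv_eq_one.mp h

omit [IsGalois ℚ L] in
lemma stabilizer_eq_zpowers (hin : Q.inertia (L ≃ₐ[ℚ] L) = ⊥) {σ : L ≃ₐ[ℚ] L}
    (hσ : IsArithFrobAt ℤ σ Q) :
    MulAction.stabilizer (L ≃ₐ[ℚ] L) Q = Subgroup.zpowers σ := by
  refine le_antisymm (fun τ hτ => ?_) (Subgroup.zpowers_le.mpr hσ.mem_stabilizer)
  have := finite_quotient_of_natCast_mem L hp hpQ
  have hmax : Q.IsMaximal :=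
    Ideal.IsPrime.isMaximal inferInstance (ne_bot_of_natCast_mem L hp hpQ)
  let _ : Field (𝓞 L ⧸ Q) := Ideal.Quotient.field Q
  have : Fact p.Prime := ⟨hp⟩
  have : CharP (𝓞 L ⧸ Q) p := by
    refine (CharP.charP_iff_prime_eq_zero hp).mpr ?_
    rw [← map_natCast (Ideal.Quotient.mk Q)]
    exact Ideal.Quotient.eq_zero_iff_mem.mpr hpQ
  let _ : Algebra (ZMod p) (𝓞 L ⧸ Q) := ZMod.algebra _ p
  let r : (𝓞 L ⧸ Q) ≃+* (𝓞 L ⧸ Q) :=
    Ideal.quotientEquiv Q Q (MulSemiringAction.toRingEquiv (L ≃ₐ[ℚ] L) (𝓞 L) τ) (by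
      conv_lhs => rw [← MulAction.mem_stabilizer_iff.mp hτ]
      rw [Ideal.pointwise_smul_def]
      rfl)
  let e : (𝓞 L ⧸ Q) ≃ₐ[ZMod p] (𝓞 L ⧸ Q) :=
    AlgEquiv.ofRingEquiv (f := r) fun z => by
      rw [← RingEquiv.coe_toRingHom, ← RingHom.comp_apply]
      exact RingHom.congr_fun (Subsingleton.elim _ _) z
  obtain ⟨i, hi⟩ := (FiniteField.bijective_frobeniusAlgEquivOfAlgebraic_pow (ZMod p) (𝓞 L ⧸ Q)).2 e
  have hpow : ∀ (j : ℕ) (x : 𝓞 L), (σ ^ j) • x - x ^ p ^ j ∈ Q := by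
    intro j
    induction j with
    | zero => simp
    | succ j ih =>
      intro x
      have h1 := (isArithFrobAt_int_iff L hp hpQ σ).mp hσ ((σ ^ j) • x)
      have h2 : ((σ ^ j) • x) ^ p - (x ^ p ^ j) ^ p ∈ Q :=
        Q.mem_of_dvd (sub_dvd_pow_sub_pow _ _ p) (ih x)
      rw [← mul_smul, ← pow_succ'] at h1
      rw [pow_succ p, pow_mul]
      simpa using Q.add_mem h1 h2
  have key : ∀ x : 𝓞 L, τ • x - (σ ^ (i : ℕ)) • x ∈ Q := by
    intro x
    have h1 : Ideal.Quotient.mk Q (τ • x) = Ideal.Quotient.mk Q x ^ p ^ (i : ℕ) := by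
      have h2 := DFunLike.congr_fun hi (Ideal.Quotient.mk Q x)
      simp only [AlgEquiv.coe_pow, FiniteField.coe_frobeniusAlgEquivOfAlgebraic_iterate,
        ZMod.card] at h2
      exact h2.symm
    rw [← map_pow, Ideal.Quotient.eq] at h1
    simpa using Q.sub_mem h1 (hpow i x)
  have hmem : (σ ^ (i : ℕ))⁻¹ * τ ∈ Q.inertia (L ≃ₐ[ℚ] L) := by
    intro x
    show ((σ ^ (i : ℕ))⁻¹ * τ) • x - x ∈ Q
    have hst : (σ ^ (i : ℕ))⁻¹ • Q = Q :=
      MulAction.mem_stabilizer_iff.mp (inv_mem (pow_mem hσ.mem_stabilizer _))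
    have h5 : (σ ^ (i : ℕ))⁻¹ • (τ • x - (σ ^ (i : ℕ)) • x) ∈ (σ ^ (i : ℕ))⁻¹ • Q :=
      Ideal.smul_mem_pointwise_smul_iff.mpr (key x)
    rw [smul_sub, inv_smul_smul, ← mul_smul] at h5
    exact (SetLike.ext_iff.mp hst _).mp h5
  rw [hin, Subgroup.mem_bot, inv_mul_eq_one] at hmem
  exact hmem ▸ Subgroup.npow_mem_zpowers σ i

end Local

omit [IsGalois ℚ L] in
lemma primesAt_finite {p : ℕ} (hp : p.Prime) :
    {Q : Ideal (𝓞 L) | Q.IsPrime ∧ (p : 𝓞 L) ∈ Q}.Finite := by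
  refine (Ideal.finite_setOfPred_absNorm_le (p ^ Module.finrank ℚ L)).subset fun Q hQ => ?_
  have h := map_dvd Ideal.absNorm (Ideal.dvd_span_singleton.mpr hQ.2)
  rw [absNorm_span_natCast] at h
  exact Nat.le_of_dvd (pow_pos hp.pos _) h

open scoped Classical in
/-- The primes over `p` with a Frobenius in `H`. -/
noncomputable def primesWithFrobIn {p : ℕ} (hp : p.Prime) (H : Subgroup (L ≃ₐ[ℚ] L)) :
    Finset (Ideal (𝓞 L)) :=
  (primesAt_finite L hp).toFinset.filter fun Q => ∃ σ ∈ H, IsArithFrobAt ℤ σ Q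

omit [IsGalois ℚ L] in
lemma mem_primesWithFrobIn {p : ℕ} {hp : p.Prime} {H : Subgroup (L ≃ₐ[ℚ] L)}
    {Q : Ideal (𝓞 L)} : Q ∈ primesWithFrobIn L hp H ↔
      (Q.IsPrime ∧ (p : 𝓞 L) ∈ Q) ∧ ∃ σ ∈ H, IsArithFrobAt ℤ σ Q := by
  classical
  simp [primesWithFrobIn]

section Count

variable (H : Subgroup (L ≃ₐ[ℚ] L)) (K : Type*) [Field K] [NumberField K] [Algebra K L]
  [IsGaloisGroup H K L]
variable {p : ℕ} (hp : p.Prime)

include hp

omit hp [IsGalois ℚ L] in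
lemma isGaloisGroup_ringOfIntegers : IsGaloisGroup H (𝓞 K) (𝓞 L) := by
  have : SMulDistribClass H (𝓞 L) L :=
    ⟨fun a b c => SMulDistribClass.smul_distrib_smul (a : L ≃ₐ[ℚ] L) b c⟩
  exact IsGaloisGroup.of_isFractionRing H (𝓞 K) (𝓞 L) K L

lemma absNorm_under_eq_iff {Q : Ideal (𝓞 L)} [Q.IsPrime] (hpQ : (p : 𝓞 L) ∈ Q)
    (hin : Q.inertia (L ≃ₐ[ℚ] L) = ⊥) :
    Ideal.absNorm (Q.under (𝓞 K)) = p ↔ ∃ σ ∈ H, IsArithFrobAt ℤ σ Q := by
  have := finite_quotient_of_natCast_mem L hp hpQ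
  have := isGaloisGroup_ringOfIntegers L H K
  constructor
  · intro hn
    obtain ⟨τ, hτ⟩ := IsArithFrobAt.exists_of_isInvariant (𝓞 K) H Q
    refine ⟨τ, τ.2, (isArithFrobAt_int_iff L hp hpQ _).mpr fun x => ?_⟩
    have h := hτ x
    rw [← Submodule.cardQuot_apply, ← Ideal.absNorm_apply, hn] at h
    exact h
  · rintro ⟨σ, hσH, hσ⟩
    set P := Q.under (𝓞 K) with hP
    have hpP : (p : 𝓞 K) ∈ P := by rw [hP, Ideal.mem_comap, map_natCast]; exact hpQ
    have hP0 : P ≠ ⊥ := fun h => by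
      rw [h, Ideal.mem_bot] at hpP
      exact hp.ne_zero (by exact_mod_cast hpP)
    have hPmax : P.IsMaximal := Ideal.IsPrime.isMaximal (Ideal.comap_isPrime _ Q) hP0
    have : Finite (𝓞 K ⧸ P) := Ideal.finiteQuotientOfFreeOfNeBot P hP0
    let _ : Field (𝓞 K ⧸ P) := Ideal.Quotient.field P
    have hfix : ∀ z : 𝓞 K ⧸ P, z ^ p = z := by
      intro z
      obtain ⟨y, rfl⟩ := Ideal.Quotient.mk_surjective z
      rw [← map_pow, Ideal.Quotient.eq, ← neg_sub, neg_mem_iff, hP, Ideal.mem_comap, map_sub,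
        map_pow]
      have h := (isArithFrobAt_int_iff L hp hpQ σ).mp hσ (algebraMap (𝓞 K) (𝓞 L) y)
      have hsm : σ • algebraMap (𝓞 K) (𝓞 L) y = algebraMap (𝓞 K) (𝓞 L) y :=
        smul_algebraMap (⟨σ, hσH⟩ : H) y
      rwa [hsm] at h
    obtain ⟨q, f, hq, hf, hqP, hnorm⟩ :=
      exists_norm_eq_pow K (Ideal.prime_of_isPrime hP0 hPmax.isPrime)
    have h1 := map_dvd Ideal.absNorm (Ideal.dvd_span_singleton.mpr hpP)
    rw [absNorm_span_natCast, hnorm] at h1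
    have hqp : q = p := (Nat.prime_dvd_prime_iff_eq hq hp).mp
      (hq.dvd_of_dvd_pow ((dvd_pow_self q hf).trans h1))
    rw [hqp] at hnorm
    cases nonempty_fintype (𝓞 K ⧸ P)
    have hle : Fintype.card (𝓞 K ⧸ P) ≤ p := by
      classical
      have := Polynomial.card_le_degree_of_subset_roots
        (Z := (Finset.univ : Finset (𝓞 K ⧸ P)))
        (p := (Polynomial.X ^ p - Polynomial.X : Polynomial (𝓞 K ⧸ P))) fun z _ => by
          rw [Polynomial.mem_roots (FiniteField.X_pow_card_sub_X_ne_zero _ hp.one_lt)]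
          simp [hfix z]
      rwa [Finset.card_univ, FiniteField.X_pow_card_sub_X_natDegree_eq _ hp.one_lt] at this
    rw [Ideal.absNorm_apply, Submodule.cardQuot_apply, Nat.card_eq_fintype_card] at hnorm ⊢
    refine le_antisymm hle ?_
    rw [hnorm]
    exact Nat.le_self_pow hf p

/-- Degree one primes of the fixed field of `H`, counted through Frobenius elements. -/
theorem natCard_mul_idealCount
    (hin : ∀ Q : Ideal (𝓞 L), Q.IsPrime → (p : 𝓞 L) ∈ Q → Q.inertia (L ≃ₐ[ℚ] L) = ⊥) :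
    Nat.card H * idealCount K p =
      ∑ Q ∈ primesWithFrobIn L hp H, Nat.card (MulAction.stabilizer (L ≃ₐ[ℚ] L) Q) := by
  classical
  have := isGaloisGroup_ringOfIntegers L H K
  have hmaps : ∀ Q ∈ primesWithFrobIn L hp H, Q.under (𝓞 K) ∈ normFiber K p := by
    intro Q hQ
    obtain ⟨⟨hQp, hpQ⟩, hσ⟩ := (mem_primesWithFrobIn L).mp hQ
    exact (mem_normFiber K).mpr ((absNorm_under_eq_iff L H K hp hpQ (hin Q hQp hpQ)).mpr hσ)
  rw [← Finset.sum_fiberwise_of_maps_to hmaps, ← card_normFiber, mul_comm, ← smul_eq_mul,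
    ← Finset.sum_const]
  refine Finset.sum_congr rfl fun P hP => ?_
  have hPn : Ideal.absNorm P = p := (mem_normFiber K).mp hP
  have hPprime : P.IsPrime :=
    Ideal.isPrime_of_prime (prime_of_absNorm_prime K (hPn.symm ▸ hp))
  have hint : Algebra.IsIntegral (𝓞 K) (𝓞 L) := inferInstance
  obtain ⟨⟨Q₀, hQ₀p, hQ₀o⟩⟩ : Nonempty (Ideal.primesOver P (𝓞 L)) := inferInstance
  have hover : P = Q₀.under (𝓞 K) := hQ₀o.over
  have hpQ₀ : (p : 𝓞 L) ∈ Q₀ := by
    have h : ((p : ℕ) : 𝓞 K) ∈ Q₀.under (𝓞 K) := by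
      rw [← hover, ← hPn]
      exact Ideal.absNorm_mem P
    rw [Ideal.mem_comap, map_natCast] at h
    exact h
  obtain ⟨σ, hσH, hσ⟩ := (absNorm_under_eq_iff L H K hp hpQ₀ (hin Q₀ hQ₀p hpQ₀)).mp (hover ▸ hPn)
  have hmemfib : ∀ Q : Ideal (𝓞 L),
      Q ∈ (primesWithFrobIn L hp H).filter (fun Q => Q.under (𝓞 K) = P) ↔
        Q ∈ MulAction.orbit H Q₀ := by
    intro Q
    constructor
    · intro hQ
      obtain ⟨hQ1, hQP⟩ := Finset.mem_filter.mp hQ
      have : Q.IsPrime := ((mem_primesWithFrobIn L).mp hQ1).1.1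
      obtain ⟨h, hh⟩ := Algebra.IsInvariant.exists_smul_of_under_eq (𝓞 K) (𝓞 L) H Q₀ Q
        (hover.symm.trans hQP.symm)
      exact ⟨h, hh.symm⟩
    · rintro ⟨h, rfl⟩
      have hu : (h • Q₀).under (𝓞 K) = P := (Ideal.under_smul (𝓞 K) Q₀ h).trans hover.symm
      have hpr : (h • Q₀).IsPrime := inferInstance
      have hpQ : (p : 𝓞 L) ∈ h • Q₀ := by
        have h' : h • (p : 𝓞 L) ∈ h • Q₀ := Ideal.smul_mem_pointwise_smul h _ _ hpQ₀
        rwa [← map_natCast (algebraMap (𝓞 K) (𝓞 L)), smul_algebraMap,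
          map_natCast] at h'
      exact Finset.mem_filter.mpr ⟨(mem_primesWithFrobIn L).mpr ⟨⟨hpr, hpQ⟩,
        (absNorm_under_eq_iff L H K hp hpQ (hin _ hpr hpQ)).mp (hu.symm ▸ hPn)⟩, hu⟩
  have hst : ∀ Q ∈ (primesWithFrobIn L hp H).filter (fun Q => Q.under (𝓞 K) = P),
      Nat.card (MulAction.stabilizer (L ≃ₐ[ℚ] L) Q) = Nat.card (MulAction.stabilizer H Q₀) := by
    intro Q hQ
    obtain ⟨h, rfl⟩ := (hmemfib Q).mp hQ
    have h0 : Nat.card (MulAction.stabilizer (L ≃ₐ[ℚ] L) (h • Q₀)) =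
        Nat.card (MulAction.stabilizer (L ≃ₐ[ℚ] L) Q₀) :=
      (Nat.card_congr (MulAction.stabilizerEquivStabilizer
        (g := (h : L ≃ₐ[ℚ] L)) (rfl : (h • Q₀) = (h : L ≃ₐ[ℚ] L) • Q₀)).toEquiv).symm
    have hle : MulAction.stabilizer (L ≃ₐ[ℚ] L) Q₀ ≤ H := by
      rw [stabilizer_eq_zpowers L hp hpQ₀ (hin Q₀ hQ₀p hpQ₀) hσ]
      exact Subgroup.zpowers_le.mpr hσH
    have hmap : (MulAction.stabilizer H Q₀).map H.subtype =
        MulAction.stabilizer (L ≃ₐ[ℚ] L) Q₀ :=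
      le_antisymm (by rintro _ ⟨a, ha, rfl⟩; exact ha) fun a ha => ⟨⟨a, hle ha⟩, ha, rfl⟩
    rw [h0, ← hmap]
    exact Subgroup.card_map_of_injective Subtype.val_injective
  rw [Finset.sum_congr rfl hst, Finset.sum_const, smul_eq_mul,
    ← (MulAction.stabilizer H Q₀).index_mul_card, MulAction.index_stabilizer,
    ← Set.ncard_coe_finset]
  congr 2
  ext Q
  exact (hmemfib Q).symm

end Count

lemma sum_moebius_filter_dvd {n k : ℕ} (hn : n ≠ 0) :
    ∑ e ∈ n.divisors with e ∣ k, (moebius e : ℤ) = if Nat.Coprime n k then 1 else 0 := by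
  have hset : n.divisors.filter (fun e => e ∣ k) = (Nat.gcd n k).divisors := by
    ext e
    simp [Nat.dvd_gcd_iff, hn]
  have h := congrArg (fun f : ArithmeticFunction ℤ => f (Nat.gcd n k))
    (coe_moebius_mul_coe_zeta (R := ℤ))
  simp only [coe_mul_zeta_apply, intCoe_apply, Int.cast_id, one_apply] at h
  rw [hset, h]

lemma sum_moebius_mul_div {n : ℕ} (hn : 0 < n) :
    ∑ e ∈ n.divisors, (moebius e : ℤ) * ((n / e : ℕ) : ℤ) = (Nat.totient n : ℤ) := by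
  have h := (sum_eq_iff_sum_mul_moebius_eq (f := fun i => (Nat.totient i : ℤ))
    (g := fun i => (i : ℤ))).mp (fun m _ => by exact_mod_cast Nat.sum_totient m) n hn
  simp only [Int.cast_id] at h
  rw [Nat.sum_divisorsAntidiagonal fun a b => (moebius a : ℤ) * (b : ℤ)] at h
  exact h

/-- The fixed fields of subgroups of a cyclic group. -/
abbrev cyclicFixedField (g : L ≃ₐ[ℚ] L) (e : ℕ) : IntermediateField ℚ L :=
  IntermediateField.fixedField (Subgroup.zpowers (g ^ e))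

/-- The weighted count of degree one primes over `p` in the fixed fields. -/
noncomputable def cyclicCount (g : L ≃ₐ[ℚ] L) (p : ℕ) : ℤ :=
  ∑ e ∈ (orderOf g).divisors, (moebius e : ℤ) * ((orderOf g / e : ℕ) : ℤ) *
    (idealCount (cyclicFixedField L g e) p : ℤ)

lemma cyclicCount_eq_zero (g : L ≃ₐ[ℚ] L) {p : ℕ} (hp : p.Prime)
    (hin : ∀ Q : Ideal (𝓞 L), Q.IsPrime → (p : 𝓞 L) ∈ Q → Q.inertia (L ≃ₐ[ℚ] L) = ⊥)
    (hno : ∀ Q : Ideal (𝓞 L), Q.IsPrime → (p : 𝓞 L) ∈ Q → ∀ σ : L ≃ₐ[ℚ] L,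
      IsArithFrobAt ℤ σ Q → Subgroup.zpowers σ ≠ Subgroup.zpowers g) :
    cyclicCount L g p = 0 := by
  classical
  have hterm : ∀ e ∈ (orderOf g).divisors,
      ((orderOf g / e : ℕ) : ℤ) * (idealCount (cyclicFixedField L g e) p : ℤ) =
        ∑ Q ∈ (primesAt_finite L hp).toFinset,
          if ∃ σ ∈ Subgroup.zpowers (g ^ e), IsArithFrobAt ℤ σ Q then
            (Nat.card (MulAction.stabilizer (L ≃ₐ[ℚ] L) Q) : ℤ) else 0 := by
    intro e he
    have hdvd : e ∣ orderOf g := Nat.dvd_of_mem_divisors he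
    have : IsGaloisGroup (Subgroup.zpowers (g ^ e)) (cyclicFixedField L g e) L :=
      IsGaloisGroup.subgroup (L ≃ₐ[ℚ] L) ℚ L _
    have h := natCard_mul_idealCount L (Subgroup.zpowers (g ^ e)) (cyclicFixedField L g e) hp hin
    rw [Nat.card_zpowers, orderOf_pow_of_dvd (ne_zero_of_dvd_ne_zero (orderOf_pos g).ne' hdvd) hdvd]
      at h
    rw [← Nat.cast_mul, h, Nat.cast_sum, primesWithFrobIn, Finset.sum_filter]
  rw [cyclicCount, Finset.sum_congr rfl fun e he => by rw [mul_assoc, hterm e he, Finset.mul_sum],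
    Finset.sum_comm]
  refine Finset.sum_eq_zero fun Q hQ => ?_
  obtain ⟨hQp, hpQ⟩ := (Set.Finite.mem_toFinset _).mp hQ
  obtain ⟨σ, hσ⟩ := exists_isArithFrobAt L hp hpQ
  have hiff : ∀ D : Subgroup (L ≃ₐ[ℚ] L), (∃ τ ∈ D, IsArithFrobAt ℤ τ Q) ↔ σ ∈ D :=
    fun D => ⟨fun ⟨τ, hτ, hτf⟩ => isArithFrobAt_unique L (hin Q hQp hpQ) hσ hτf ▸ hτ,
      fun h => ⟨σ, h, hσ⟩⟩
  simp only [hiff, mul_ite, mul_zero]
  rw [← Finset.sum_filter, ← Finset.sum_mul]
  by_cases hmem : σ ∈ Subgroup.zpowers g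
  · obtain ⟨k, rfl⟩ := mem_powers_iff_mem_zpowers.mpr hmem
    have hk : ∀ e ∈ (orderOf g).divisors, g ^ k ∈ Subgroup.zpowers (g ^ e) ↔ e ∣ k := by
      intro e he
      constructor
      · intro h
        obtain ⟨j, hj⟩ := mem_powers_iff_mem_zpowers.mpr h
        simp only [← pow_mul] at hj
        rw [pow_eq_pow_iff_modEq] at hj
        exact (Nat.ModEq.dvd_iff hj (Nat.dvd_of_mem_divisors he)).mp (dvd_mul_right e j)
      · rintro ⟨j, rfl⟩
        rw [pow_mul]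
        exact Subgroup.npow_mem_zpowers _ _
    simp only at hk ⊢
    rw [Finset.filter_congr hk, sum_moebius_filter_dvd (orderOf_pos g).ne', if_neg, zero_mul]
    intro hcop
    refine hno Q hQp hpQ _ hσ (le_antisymm (Subgroup.zpowers_le.mpr hmem) ?_)
    refine Subgroup.zpowers_le.mpr ?_
    obtain ⟨m, hm⟩ := exists_pow_eq_self_of_coprime hcop.symm
    have hm' := Subgroup.npow_mem_zpowers (g ^ k) m
    rwa [hm] at hm'
  · rw [Finset.filter_eq_empty_iff.mpr, Finset.sum_empty, zero_mul]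
    intro e _ h
    exact hmem (Subgroup.zpowers_le.mpr (Subgroup.npow_mem_zpowers g e) h)

/-- **Frobenius density theorem**, existence form. -/
theorem exists_frobenius_generator (g : L ≃ₐ[ℚ] L) (S : Finset ℕ) :
    ∃ p : ℕ, p.Prime ∧ p ∉ S ∧ ∃ Q : Ideal (𝓞 L), Q.IsPrime ∧ (p : 𝓞 L) ∈ Q ∧
      Q.inertia (L ≃ₐ[ℚ] L) = ⊥ ∧
      ∃ σ : L ≃ₐ[ℚ] L, IsArithFrobAt ℤ σ Q ∧ Subgroup.zpowers σ = Subgroup.zpowers g := by
  classical
  by_contra hcon
  obtain ⟨N, hN, hinN⟩ := exists_ne_zero_inertia_eq_bot L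
  let U : Finset Nat.Primes := (S ∪ N.primeFactors).subtype Nat.Prime
  have hzero : ∀ p : Nat.Primes, p ∉ U → cyclicCount L g p = 0 := by
    intro p hp
    have hp : (p : ℕ) ∉ S ∧ (p : ℕ) ∉ N.primeFactors :=
      not_or.mp fun h => hp (Finset.mem_subtype.mpr (Finset.mem_union.mpr h))
    have hin := hinN p p.2 fun h => hp.2 (Nat.mem_primeFactors.mpr ⟨p.2, h, hN⟩)
    exact cyclicCount_eq_zero L g p.2 hin fun Q hQ hpQ σ hσ hz =>
      hcon ⟨p, p.2, hp.1, Q, hQ, hpQ, hin Q hQ hpQ, σ, hσ, hz⟩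
  let c : ℕ → ℝ := fun e => ((moebius e : ℤ) : ℝ) * ((orderOf g / e : ℕ) : ℝ)
  let V : ℝ := ∑ p ∈ U, |(cyclicCount L g p : ℝ)|
  have hval : ∀ s : ℝ, 1 < s →
      |∑ e ∈ (orderOf g).divisors, c e * degOneSum (cyclicFixedField L g e) s| ≤ V := by
    intro s hs
    have heq : ∑ e ∈ (orderOf g).divisors, c e * degOneSum (cyclicFixedField L g e) s =
        ∑ p ∈ U, (cyclicCount L g p : ℝ) * (p : ℝ) ^ (-s) := by
      simp only [degOneSum, ← tsum_mul_left]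
      rw [← Summable.tsum_finsetSum fun e _ => (degOneSum_summable _ hs).mul_left _]
      have hpoint : ∀ p : Nat.Primes, ∑ e ∈ (orderOf g).divisors,
          c e * ((idealCount (cyclicFixedField L g e) p : ℝ) * (p : ℝ) ^ (-s)) =
            (cyclicCount L g p : ℝ) * (p : ℝ) ^ (-s) := fun p => by
        simp only [cyclicCount, c, Int.cast_sum, Int.cast_mul, Int.cast_natCast, Finset.sum_mul]
        exact Finset.sum_congr rfl fun e _ => (mul_assoc _ _ _).symm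
      rw [tsum_congr hpoint]
      exact tsum_eq_sum fun p hp => by rw [hzero p hp, Int.cast_zero, zero_mul]
    rw [heq]
    refine (Finset.abs_sum_le_sum_abs _ _).trans (Finset.sum_le_sum fun p _ => ?_)
    rw [abs_mul]
    refine mul_le_of_le_one_right (abs_nonneg _) ?_
    rw [abs_of_nonneg (by positivity)]
    exact Real.rpow_le_one_of_one_le_of_nonpos (by exact_mod_cast p.2.one_le) (by linarith)
  choose C hC using fun e : ℕ => degOneSum_add_log_bounded (cyclicFixedField L g e)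
  let W : ℝ := ∑ e ∈ (orderOf g).divisors, |c e| * C e
  have hphi : (1 : ℝ) ≤ ∑ e ∈ (orderOf g).divisors, c e := by
    have h := congrArg (fun z : ℤ => (z : ℝ)) (sum_moebius_mul_div (orderOf_pos g))
    simp only [Int.cast_sum, Int.cast_mul, Int.cast_natCast] at h
    rw [h]
    exact_mod_cast Nat.totient_pos.mpr (orderOf_pos g)
  have hev : ∀ᶠ s : ℝ in 𝓝[>] 1, ∀ e ∈ (orderOf g).divisors,
      |degOneSum (cyclicFixedField L g e) s + Real.log (s - 1)| ≤ C e :=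
    (Filter.eventually_all_finset _).mpr fun e _ => hC e
  have hto : Tendsto (fun s : ℝ => Real.log (s - 1)) (𝓝[>] 1) atBot := by
    refine Real.tendsto_log_nhdsGT_zero.comp (tendsto_nhdsWithin_iff.mpr ⟨?_, ?_⟩)
    · exact ((continuous_id.sub continuous_const).tendsto' 1 0 (sub_self 1)).mono_left
        nhdsWithin_le_nhds
    · filter_upwards [self_mem_nhdsWithin] with s hs using sub_pos.mpr (show (1 : ℝ) < s from hs)
  have h1ev : ∀ᶠ s : ℝ in 𝓝[>] 1, 1 < s := self_mem_nhdsWithin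
  obtain ⟨s, ⟨hs1, hsC⟩, hslog⟩ :=
    ((h1ev.and hev).and (hto.eventually (Filter.eventually_lt_atBot (-|V + W| - 1)))).exists
  set D : ℝ := ∑ e ∈ (orderOf g).divisors, c e with hD
  have hsum : |(∑ e ∈ (orderOf g).divisors, c e * degOneSum (cyclicFixedField L g e) s) +
      D * Real.log (s - 1)| ≤ W := by
    rw [hD, Finset.sum_mul, ← Finset.sum_add_distrib]
    refine (Finset.abs_sum_le_sum_abs _ _).trans (Finset.sum_le_sum fun e he => ?_)
    rw [← mul_add, abs_mul]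
    exact mul_le_mul_of_nonneg_left (hsC e he) (abs_nonneg _)
  have h1 := abs_le.mp (hval s hs1)
  have h2 := abs_le.mp hsum
  have hneg : Real.log (s - 1) ≤ 0 := by
    have := abs_nonneg (V + W)
    linarith
  have h3 := mul_le_mul_of_nonpos_right hphi hneg
  have h4 := le_abs_self (V + W)
  linarith

end FermatLib.Galois.Density
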