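import Mathlib.FieldTheory.Normal.Closure
import Fermat.Agent.Basic.FrobeniusExists
import Fermat.Agent.Galois.Density.Finite

/-!
# From places of `ℚ̄` to primes of a finite Galois level
-/

set_option autoImplicit false

open scoped NumberField Pointwise

namespace FermatLib.Galois.Density

local notation "Qbar" => AlgebraicClosure ℚ
local notation "Γℚ" => (AlgebraicClosure ℚ ≃ₐ[ℚ] AlgebraicClosure ℚ)

local instance isAlgebraic_qbar_density : Algebra.IsAlgebraic ℚ Qbar :=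
  AlgebraicClosure.isAlgebraic ℚ

local instance normal_qbar_density : Normal ℚ Qbar :=
  normal_iff.mpr fun x =>
    ⟨(Algebra.IsAlgebraic.isAlgebraic x).isIntegral, IsAlgClosed.splits _⟩

lemma smul_mem_nonunits {A : ValuationSubring Qbar} (γ : Γℚ) :
    ∀ w : Qbar, w ∈ A.nonunits → γ w ∈ (γ • A).nonunits := by
  intro w hw
  obtain ⟨hwA, hw'⟩ := ValuationSubring.mem_nonunits_iff_exists_mem_maximalIdeal.mp hw
  have hwB : γ w ∈ γ • A := ValuationSubring.smul_mem_pointwise_smul γ w A hwA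
  refine ValuationSubring.mem_nonunits_iff_exists_mem_maximalIdeal.mpr ⟨hwB, ?_⟩
  rw [IsLocalRing.mem_maximalIdeal] at hw' ⊢
  intro hu
  obtain ⟨v, hv⟩ := hu.exists_left_inv
  refine hw' (IsUnit.of_mul_eq_one (⟨γ⁻¹ (v : Qbar),
    (ValuationSubring.mem_pointwise_smul_iff_inv_smul_mem).mp v.2⟩ : A) (Subtype.ext ?_))
  apply γ.injective
  have hv' : (v : Qbar) * γ w = 1 := congrArg Subtype.val hv
  rw [MulMemClass.coe_mul, map_mul, ← AlgEquiv.mul_apply γ γ⁻¹, mul_inv_cancel,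
    AlgEquiv.one_apply, mul_comm]
  simpa using hv'

/-- Conjugates of Frobenius elements are Frobenius elements at the translated place. -/
lemma isFrobeniusAt_conj {A : ValuationSubring Qbar} {τ : Γℚ} {q : ℕ}
    (hτ : A.IsFrobeniusAt τ q) (γ : Γℚ) : (γ • A).IsFrobeniusAt (γ * τ * γ⁻¹) q := by
  have hA := hτ.mem_decompositionSubgroup
  have hd : γ * τ * γ⁻¹ ∈ (γ • A).decompositionSubgroup ℚ := by
    rw [MulAction.mem_stabilizer_iff, mul_smul, mul_smul, inv_smul_smul,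
      MulAction.mem_stabilizer_iff.mp hA]
  refine ⟨hd, fun z => ?_⟩
  obtain ⟨⟨y, hy⟩, rfl⟩ := IsLocalRing.residue_surjective z
  obtain ⟨x, hx, rfl⟩ : ∃ x ∈ A, γ x = y := by
    refine ⟨γ⁻¹ y, (ValuationSubring.mem_pointwise_smul_iff_inv_smul_mem).mp hy, ?_⟩
    rw [← AlgEquiv.mul_apply, mul_inv_cancel, AlgEquiv.one_apply]
  have h := hτ.smul_residue_eq (IsLocalRing.residue A ⟨x, hx⟩)
  rw [← IsLocalRing.ResidueField.residue_smul, ← map_pow, ← sub_eq_zero, ← map_sub,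
    IsLocalRing.residue_eq_zero_iff, ← A.coe_mem_nonunits_iff] at h
  rw [← IsLocalRing.ResidueField.residue_smul, ← map_pow, ← sub_eq_zero, ← map_sub,
    IsLocalRing.residue_eq_zero_iff, ← (γ • A).coe_mem_nonunits_iff]
  have e : (γ * τ * γ⁻¹) (γ x) = γ (τ x) := by
    rw [AlgEquiv.mul_apply, ← AlgEquiv.mul_apply γ⁻¹ γ, inv_mul_cancel, AlgEquiv.one_apply,
      AlgEquiv.mul_apply]
  have h2 := smul_mem_nonunits γ _ h
  show (γ * τ * γ⁻¹) (γ x) - γ x ^ q ∈ (γ • A).nonunits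
  rw [e, ← map_pow, ← map_sub]
  exact h2

variable (F : IntermediateField ℚ Qbar)

/-- The algebraic integers of `F` inside a valuation subring of `ℚ̄`. -/
noncomputable def toPlace (A : ValuationSubring Qbar) : 𝓞 F →+* A :=
  ((algebraMap F Qbar).comp (algebraMap (𝓞 F) F)).codRestrict A.toSubring fun a =>
    FermatLib.Basic.valuationSubring_mem_of_isIntegral A
      ((NumberField.RingOfIntegers.isIntegral_coe a).map ((algebraMap F Qbar).toIntAlgHom))

/-- The prime of `F` below a valuation subring of `ℚ̄`. -/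
noncomputable def placePrime (A : ValuationSubring Qbar) : Ideal (𝓞 F) :=
  (IsLocalRing.maximalIdeal A).comap (toPlace F A)

instance placePrime_isPrime (A : ValuationSubring Qbar) : (placePrime F A).IsPrime :=
  Ideal.comap_isPrime _ _

variable {F}

lemma mem_placePrime_iff {A : ValuationSubring Qbar} {a : 𝓞 F} :
    a ∈ placePrime F A ↔ ((a : F) : Qbar) ∈ A.nonunits :=
  (A.coe_mem_nonunits_iff (a := toPlace F A a)).symm

lemma natCast_mem_placePrime {A : ValuationSubring Qbar} {l : ℕ} (hA : A.LiesOverPrime l) :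
    (l : 𝓞 F) ∈ placePrime F A := by
  rw [mem_placePrime_iff]
  simpa [ValuationSubring.LiesOverPrime] using hA

lemma isArithFrobAt_restrictNormalHom [NumberField F] [IsGalois ℚ F] {A : ValuationSubring Qbar}
    {l : ℕ} (hl : l.Prime) (hA : A.LiesOverPrime l) {τ : Γℚ} (hτ : A.IsFrobeniusAt τ l) :
    IsArithFrobAt ℤ (AlgEquiv.restrictNormalHom F τ) (placePrime F A) := by
  rw [isArithFrobAt_int_iff F hl (natCast_mem_placePrime hA)]
  intro a
  have h1 := hτ.smul_residue_eq (IsLocalRing.residue A (toPlace F A a))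
  rw [← IsLocalRing.ResidueField.residue_smul, ← map_pow, ← sub_eq_zero, ← map_sub,
    IsLocalRing.residue_eq_zero_iff, ← A.coe_mem_nonunits_iff] at h1
  rw [mem_placePrime_iff]
  have hc : (((AlgEquiv.restrictNormalHom F τ • a : 𝓞 F) : F) : Qbar) = τ ((a : F) : Qbar) :=
    AlgEquiv.restrictNormal_commutes τ F (a : F)
  have e : (((AlgEquiv.restrictNormalHom F τ • a - a ^ l : 𝓞 F) : F) : Qbar) =
      τ ((a : F) : Qbar) - ((a : F) : Qbar) ^ l := by
    rw [← hc]
    simp only [map_sub, map_pow, AddSubgroupClass.coe_sub, SubmonoidClass.coe_pow]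
  rw [e]
  exact h1

lemma under_int_eq_span {L : Type*} [Field L] {p : ℕ} (hp : p.Prime) {Q : Ideal (𝓞 L)}
    [Q.IsPrime] (hpQ : (p : 𝓞 L) ∈ Q) : Q.under ℤ = Ideal.span {(p : ℤ)} := by
  have hmax : (Ideal.span {(p : ℤ)}).IsMaximal :=
    PrincipalIdealRing.isMaximal_of_irreducible (Nat.prime_iff_prime_int.mp hp).irreducible
  refine (hmax.eq_of_le (Ideal.comap_ne_top _ Ideal.IsPrime.ne_top') ?_).symm
  rw [Ideal.span_singleton_le_iff_mem, Ideal.mem_comap]
  simpa using hpQ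

/-- Frobenius density transported to `ℚ̄` at a finite Galois level. -/
lemma exists_frobenius_of_level [NumberField F] [IsGalois ℚ F] (g : Γℚ) (S : Finset ℕ) :
    ∃ ℓ : ℕ, ℓ.Prime ∧ ℓ ∉ S ∧ ∃ A : ValuationSubring Qbar, A.LiesOverPrime ℓ ∧
      ∃ σ : Γℚ, A.IsFrobeniusAt σ ℓ ∧
        ∃ a b : ℕ, AlgEquiv.restrictNormalHom F σ = AlgEquiv.restrictNormalHom F (g ^ a) ∧
          AlgEquiv.restrictNormalHom F (σ ^ b) = AlgEquiv.restrictNormalHom F g := by
  obtain ⟨p, hp, hpS, Q, hQ, hpQ, hin, σ₀, hσ₀, hgen⟩ :=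
    exists_frobenius_generator F (AlgEquiv.restrictNormalHom F g) S
  obtain ⟨A, hA⟩ := FermatLib.Basic.exists_liesOverPrime hp
  obtain ⟨τ, hτ⟩ := FermatLib.Basic.exists_isFrobeniusAt hp A hA
  have : IsGaloisGroup (F ≃ₐ[ℚ] F) ℤ (𝓞 F) := inferInstance
  obtain ⟨γ₀, hγ₀⟩ := Algebra.IsInvariant.exists_smul_of_under_eq ℤ (𝓞 F) (F ≃ₐ[ℚ] F)
    (placePrime F A) Q
    ((under_int_eq_span hp (natCast_mem_placePrime hA)).trans (under_int_eq_span hp hpQ).symm)
  obtain ⟨γ, rfl⟩ := AlgEquiv.restrictNormalHom_surjective (F := ℚ) (K₁ := F) Qbar γ₀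
  have hσ : AlgEquiv.restrictNormalHom F (γ * τ * γ⁻¹) = σ₀ := by
    refine isArithFrobAt_unique F hin ?_ hσ₀
    rw [map_mul, map_mul, map_inv, hγ₀]
    exact (isArithFrobAt_restrictNormalHom hp hA hτ).conj _
  obtain ⟨a, ha⟩ := mem_powers_iff_mem_zpowers.mpr
    (hgen ▸ Subgroup.mem_zpowers σ₀ : σ₀ ∈ Subgroup.zpowers (AlgEquiv.restrictNormalHom F g))
  obtain ⟨b, hb⟩ := mem_powers_iff_mem_zpowers.mpr
    (hgen.symm ▸ Subgroup.mem_zpowers _ :
      AlgEquiv.restrictNormalHom F g ∈ Subgroup.zpowers σ₀)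
  refine ⟨p, hp, hpS, γ • A, ?_, γ * τ * γ⁻¹, isFrobeniusAt_conj hτ γ, a, b, ?_, ?_⟩
  · have h1 : γ (p : Qbar) = (p : Qbar) := map_natCast γ p
    rw [ValuationSubring.LiesOverPrime]
    have h2 := smul_mem_nonunits γ _ hA
    rwa [h1] at h2
  · rw [hσ, map_pow]
    exact ha.symm
  · rw [map_pow, hσ]
    exact hb

/-- Every finite subextension of `ℚ̄` lies in a finite Galois one. -/
lemma exists_galois_level (L : IntermediateField ℚ Qbar) [FiniteDimensional ℚ L] :
    ∃ F : IntermediateField ℚ Qbar, L ≤ F ∧ NumberField F ∧ IsGalois ℚ F := by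
  refine ⟨IntermediateField.normalClosure ℚ L Qbar, IntermediateField.le_normalClosure L, ⟨⟩, ?_⟩
  have : Normal ℚ (IntermediateField.normalClosure ℚ L Qbar) :=
    normalClosure.normal ℚ L Qbar
  exact ⟨⟩

end FermatLib.Galois.Density
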